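import Mathlib
import Fermat.Agent.S13.TwoAdic.Frey2

/-!
# S13 / TwoAdic / Val2 / A4: the `2`-adic valuation of `a₄ = -a^p b^p / 16`
(owner helper95; statements frozen).
-/

set_option autoImplicit false

open WeierstrassCurve WeierstrassCurve.Affine

noncomputable section

namespace Fermat.Agent.S13.TwoAdic.V2

open Fermat.Agent.S05 (freyQb cA cB)

variable (P : FreyPackage) (A : ValuationSubring Qb)

private theorem v2a_aux_b :
    ∃ (k : ℕ) (b' : ℤ), 0 < k ∧ ¬ (2 : ℤ) ∣ b' ∧ P.b = 2 ^ k * b' := by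
  have hfin : FiniteMultiplicity (2 : ℤ) P.b :=
    Int.finiteMultiplicity_iff.2 ⟨by decide, P.hb0⟩
  obtain ⟨c, hc, hnd⟩ := hfin.exists_eq_pow_mul_and_not_dvd
  refine ⟨multiplicity 2 P.b, c, ?_, hnd, hc⟩
  have h2 : (2 : ℤ) ∣ P.b := (ZMod.intCast_zmod_eq_zero_iff_dvd P.b 2).1 P.hb2
  exact Nat.pos_of_ne_zero (multiplicity_ne_zero.2 h2)

private theorem v2a_aux_a_odd : ¬ (2 : ℤ) ∣ P.a := by
  have h := P.ha4
  have h3 : ((P.a - 3 : ℤ) : ZMod 4) = 0 := by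
    push_cast
    rw [h]
    exact sub_self _
  have h4 : ((4 : ℕ) : ℤ) ∣ P.a - 3 := (ZMod.intCast_zmod_eq_zero_iff_dvd _ 4).1 h3
  intro h2
  have h4' : (4 : ℤ) ∣ P.a - 3 := by exact_mod_cast h4
  omega

private theorem v2a_aux_prime (p : ℕ) (hp : p.Prime) (h5 : 5 ≤ p) (h8 : p ∣ 8) : False := by
  have hle : p ≤ 8 := Nat.le_of_dvd (by norm_num) h8
  interval_cases p
  · omega
  · omega
  · omega
  · exact absurd hp (by norm_num)

/-- `a₄ = -a^p b^p/16 = m · 2^n` with `m` odd, `n = p v₂(b) - 4 ≥ 1`, `p ∤ 2 n`. -/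
theorem fa₄_eq : ∃ (m : ℤ) (n : ℕ), ¬ (2 : ℤ) ∣ m ∧ 0 < n ∧ ¬ (P.p ∣ 2 * n) ∧
    fa₄ P = (m : Qb) * (2 : Qb) ^ n := by
  obtain ⟨k, b', hk, hb', hb⟩ := v2a_aux_b P
  have ha := v2a_aux_a_odd P
  have hp5 := P.hp5
  have hkp : 5 ≤ k * P.p := by nlinarith
  obtain ⟨n, hn⟩ : ∃ n, k * P.p = n + 4 := ⟨k * P.p - 4, by omega⟩
  refine ⟨-(P.a ^ P.p * b' ^ P.p), n, ?_, by omega, ?_, ?_⟩
  · rw [Int.dvd_neg]
    intro h
    rcases Int.prime_two.dvd_mul.1 h with h | h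
    · exact ha (Int.prime_two.dvd_of_dvd_pow h)
    · exact hb' (Int.prime_two.dvd_of_dvd_pow h)
  · intro hdvd
    have e : 2 * n + 8 = P.p * (2 * k) := by
      have : P.p * (2 * k) = 2 * (k * P.p) := by ring
      rw [this, hn]
      ring
    have h8 : P.p ∣ 8 := (Nat.dvd_add_right hdvd).1 (e ▸ dvd_mul_right _ _)
    exact v2a_aux_prime P.p P.pp hp5 h8
  · unfold fa₄ cA cB
    rw [hb]
    push_cast
    rw [mul_pow, ← pow_mul, hn, pow_add]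
    ring

/-- `v a₄ = (v 2) ^ n` with `n = p v₂(b) - 4 ≥ 1` and `p ∤ 2 n`. -/
theorem val_fa₄ (hA : A.LiesOverPrime 2) :
    ∃ n : ℕ, 0 < n ∧ A.valuation (fa₄ P) = A.valuation (2 : Qb) ^ n ∧ ¬ (P.p ∣ 2 * n) := by
  obtain ⟨m, n, hm, hn, hpn, h⟩ := fa₄_eq P
  refine ⟨n, hn, ?_, hpn⟩
  have hm1 : A.valuation ((m : ℤ) : Qb) = 1 :=
    (Fermat.Agent.S05.val_intCast_eq_one_iff A Nat.prime_two hA m).2 (by exact_mod_cast hm)
  rw [h, map_mul, map_pow, hm1, one_mul]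

theorem val_fa₄_lt_one (hA : A.LiesOverPrime 2) : A.valuation (fa₄ P) < 1 := by
  obtain ⟨n, hn, h, -⟩ := val_fa₄ P A hA
  rw [h]
  have h2 : A.valuation (2 : Qb) < 1 := by
    have := A.mem_nonunits_iff.mp hA
    simpa using this
  exact pow_lt_one₀ zero_le h2 hn.ne'

/-- `a₄` is integral at every valuation subring. -/
theorem val_fa₄_le : A.valuation (fa₄ P) ≤ 1 := by
  obtain ⟨m, n, -, -, -, h⟩ := fa₄_eq P
  have h' : fa₄ P = (((m * 2 ^ n : ℤ)) : Qb) := by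
    rw [h]
    push_cast
    rfl
  rw [h']
  exact Fermat.Agent.S05.val_intCast_le_one A _

end Fermat.Agent.S13.TwoAdic.V2
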