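import Mathlib
import Fermat.Agent.S13.TwoAdic.Frey2

/-!
# S13 / TwoAdic / Val2 / Basic: elementary `2`-adic facts (owner helper95; statements frozen).
-/

set_option autoImplicit false

open WeierstrassCurve WeierstrassCurve.Affine

noncomputable section

namespace Fermat.Agent.S13.TwoAdic.V2

open Fermat.Agent.S05 (freyQb cA cB)

variable (P : FreyPackage) (A : ValuationSubring Qb)

private theorem v2b_aux_two_dvd_b : (2 : ℤ) ∣ P.b :=
  (ZMod.intCast_zmod_eq_zero_iff_dvd P.b 2).1 P.hb2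

private theorem v2b_aux_four_dvd_a : (4 : ℤ) ∣ 3 - P.a := by
  have h : ((P.a : ℤ) : ZMod 4) = ((3 : ℤ) : ZMod 4) := by
    rw [P.ha4]; norm_num
  exact_mod_cast (ZMod.intCast_eq_intCast_iff_dvd_sub P.a 3 4).mp h

private theorem v2b_aux_not_two_dvd_a_pow : ¬ (2 : ℤ) ∣ P.a ^ P.p := by
  intro h
  have h1 : (2 : ℤ) ∣ P.a := Int.prime_two.dvd_of_dvd_pow h
  have h2 := v2b_aux_four_dvd_a P
  omega

private theorem v2b_aux_two_dvd_b_pow : (2 : ℤ) ∣ P.b ^ P.p :=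
  dvd_pow (v2b_aux_two_dvd_b P) P.hp0

private theorem v2b_aux_not_two_dvd : ¬ (2 : ℤ) ∣ P.b ^ P.p - P.a ^ P.p := by
  intro h
  have h1 := v2b_aux_two_dvd_b_pow P
  have h2 := v2b_aux_not_two_dvd_a_pow P
  omega

private theorem v2b_aux_four_dvd : (4 : ℤ) ∣ P.b ^ P.p - 1 - P.a ^ P.p := by
  have h1 : (4 : ℤ) ∣ P.b ^ P.p := by
    have h2 : (2 : ℤ) ^ P.p ∣ P.b ^ P.p := pow_dvd_pow_of_dvd (v2b_aux_two_dvd_b P) _
    have h3 : (2 : ℤ) ^ 2 ∣ (2 : ℤ) ^ P.p := pow_dvd_pow 2 (by have := P.hp5; omega)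
    have h4 : (4 : ℤ) = 2 ^ 2 := by norm_num
    rw [h4]
    exact h3.trans h2
  have h5 : (4 : ℤ) ∣ P.a ^ P.p + 1 := by
    have h6 : P.a + 1 ∣ P.a ^ P.p + 1 ^ P.p := Odd.add_dvd_pow_add_pow P.a 1 P.hp_odd
    rw [one_pow] at h6
    have h7 : (4 : ℤ) ∣ P.a + 1 := by
      have := v2b_aux_four_dvd_a P
      omega
    exact h7.trans h6
  omega

theorem val_two_lt_one (hA : A.LiesOverPrime 2) : A.valuation (2 : Qb) < 1 := by
  have h := A.mem_nonunits_iff.mp hA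
  simpa using h

theorem val_two_pos : 0 < A.valuation (2 : Qb) := by
  rw [zero_lt_iff, Valuation.ne_zero_iff]
  exact two_ne_zero

theorem val_fb₂ (hA : A.LiesOverPrime 2) : A.valuation (fb₂ P) = 1 := by
  have h : fb₂ P = ((P.b ^ P.p - P.a ^ P.p : ℤ) : Qb) := by
    unfold fb₂ cA cB
    push_cast
    rfl
  rw [h, Fermat.Agent.S05.val_intCast_eq_one_iff A Nat.prime_two hA]
  exact_mod_cast v2b_aux_not_two_dvd P

/-- `a₂ = (b^p - 1 - a^p)/4` is an integer. -/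
theorem fa₂_int' : ∃ m : ℤ, fa₂ P = (m : Qb) := by
  obtain ⟨m, hm⟩ := v2b_aux_four_dvd P
  refine ⟨m, ?_⟩
  have h : cB P - 1 - cA P = ((P.b ^ P.p - 1 - P.a ^ P.p : ℤ) : Qb) := by
    unfold cA cB
    push_cast
    rfl
  unfold fa₂
  rw [h, hm]
  push_cast
  field_simp

theorem val_fa₂_le : A.valuation (fa₂ P) ≤ 1 := by
  obtain ⟨m, hm⟩ := fa₂_int' P
  rw [hm]
  exact Fermat.Agent.S05.val_intCast_le_one A m

theorem val_p (hA : A.LiesOverPrime 2) : A.valuation ((P.p : ℕ) : Qb) = 1 := by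
  rw [← Int.cast_natCast, Fermat.Agent.S05.val_intCast_eq_one_iff A Nat.prime_two hA]
  have h := P.hp_odd
  rw [Nat.odd_iff] at h
  omega

theorem val_three (hA : A.LiesOverPrime 2) : A.valuation ((3 : ℕ) : Qb) = 1 := by
  rw [← Int.cast_natCast, Fermat.Agent.S05.val_intCast_eq_one_iff A Nat.prime_two hA]
  norm_num

end Fermat.Agent.S13.TwoAdic.V2
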