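import Mathlib
import Fermat.Agent.S13.TwoAdic.Val2.Basic
import Fermat.Agent.S13.TwoAdic.Val2.A4

/-!
# S13 / TwoAdic / Val2 / Fixed: Galois-fixed elements are rational; integrality of `y`
(owner helper95; statements frozen).
-/

set_option autoImplicit false

open WeierstrassCurve WeierstrassCurve.Affine

noncomputable section

namespace Fermat.Agent.S13.TwoAdic.V2

open Fermat.Agent.S05 (freyQb cA cB)

variable (P : FreyPackage) (A : ValuationSubring Qb)

/-- `ℚ̄` is an algebraic closure of `ℚ` for the canonical `ℚ`-algebra structure. -/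
private theorem v2f_aux_isAlgClosure : IsAlgClosure ℚ (AlgebraicClosure ℚ) := by
  have h : (DivisionRing.toRatAlgebra : Algebra ℚ (AlgebraicClosure ℚ)) =
      AlgebraicClosure.instAlgebra ℚ := Subsingleton.elim _ _
  rw [h]
  infer_instance

private theorem v2f_aux_isGalois : IsGalois ℚ Qb :=
  haveI := v2f_aux_isAlgClosure
  IsAlgClosure.isGalois ℚ (AlgebraicClosure ℚ)

/-- An element of `ℚ̄` fixed by the whole Galois group is rational. -/
theorem rat_of_fixed (z : Qb) (hz : ∀ σ : Gal, σ z = z) : ∃ r : ℚ, z = algebraMap ℚ Qb r := by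
  have : IsGalois ℚ Qb := v2f_aux_isGalois
  have h := InfiniteGalois.fixedField_fixingSubgroup (⊥ : IntermediateField ℚ Qb)
  have hmem : z ∈ IntermediateField.fixedField (⊥ : IntermediateField ℚ Qb).fixingSubgroup := by
    rw [IntermediateField.mem_fixedField_iff]
    intro σ _
    exact hz σ
  rw [h, IntermediateField.mem_bot] at hmem
  obtain ⟨r, hr⟩ := hmem
  exact ⟨r, hr.symm⟩

/-- Integral `x` gives integral `y`. -/
theorem val_y_le {x y : Qb} (h : (freyQb P).Nonsingular x y) (hx : A.valuation x ≤ 1) :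
    A.valuation y ≤ 1 := by
  have heq := (Fermat.Agent.S13.TwoAdic.nonsingular_iff P x y).mp h
  rw [A.valuation_le_one_iff] at hx ⊢
  have h2 : fa₂ P ∈ A := (A.valuation_le_one_iff _).mp (val_fa₂_le P A)
  have h4 : fa₄ P ∈ A := (A.valuation_le_one_iff _).mp (val_fa₄_le P A)
  have hR : y * (y + x) ∈ A := by
    have h1 : y * (y + x) = x ^ 3 + fa₂ P * x ^ 2 + fa₄ P * x := by
      rw [← heq]; ring
    rw [h1]
    exact add_mem (add_mem (pow_mem hx 3) (mul_mem h2 (pow_mem hx 2))) (mul_mem h4 hx)
  rcases A.mem_or_inv_mem y with hy | hy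
  · exact hy
  · by_cases hy0 : y = 0
    · rw [hy0]; exact zero_mem A
    · have h1 : y + x ∈ A := by
        have h3 : y + x = y⁻¹ * (y * (y + x)) := by
          rw [← mul_assoc, inv_mul_cancel₀ hy0, one_mul]
        rw [h3]
        exact mul_mem hy hR
      have h3 : y = (y + x) - x := by ring
      rw [h3]
      exact sub_mem h1 hx

end Fermat.Agent.S13.TwoAdic.V2
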