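import Mathlib
import Fermat.Agent.S13.TwoAdic.Frey2

/-!
# S13 / TwoAdic / Val2 / Rat: valuations of rational numbers at a place above `2`
(owner helper95; statements frozen).
-/

set_option autoImplicit false

open WeierstrassCurve WeierstrassCurve.Affine

noncomputable section

namespace Fermat.Agent.S13.TwoAdic.V2

open Fermat.Agent.S05 (freyQb cA cB)

variable (P : FreyPackage) (A : ValuationSubring Qb)

/-- The valuation of a nonzero natural number is a power of `v 2`. -/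
private theorem v2r_aux_val_nat (hA : A.LiesOverPrime 2) (n : ℕ) (hn : n ≠ 0) :
    ∃ k : ℕ, A.valuation ((n : ℕ) : Qb) = A.valuation (2 : Qb) ^ k := by
  obtain ⟨k, m, hm, rfl⟩ := Nat.exists_eq_two_pow_mul_odd hn
  refine ⟨k, ?_⟩
  have h1 : A.valuation (((m : ℤ) : ℤ) : Qb) = 1 := by
    rw [Fermat.Agent.S05.val_intCast_eq_one_iff A Nat.prime_two hA]
    intro h
    have h2 : (2 : ℕ) ∣ m := by exact_mod_cast h
    exact (Nat.not_even_iff_odd.mpr hm) (even_iff_two_dvd.mpr h2)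
  rw [Int.cast_natCast] at h1
  rw [Nat.cast_mul, Nat.cast_pow, map_mul, map_pow, h1, mul_one, Nat.cast_ofNat]

/-- The valuation of a nonzero integer is a power of `v 2`. -/
private theorem v2r_aux_val_int (hA : A.LiesOverPrime 2) (n : ℤ) (hn : n ≠ 0) :
    ∃ k : ℕ, A.valuation ((n : ℤ) : Qb) = A.valuation (2 : Qb) ^ k := by
  obtain ⟨k, hk⟩ := v2r_aux_val_nat A hA n.natAbs (Int.natAbs_ne_zero.mpr hn)
  refine ⟨k, ?_⟩
  rcases Int.natAbs_eq n with h | h
  · rw [h, Int.cast_natCast]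
    exact hk
  · rw [h, Int.cast_neg, Valuation.map_neg, Int.cast_natCast]
    exact hk

private theorem v2r_aux_cast (r : ℚ) :
    algebraMap ℚ Qb r = ((r.num : ℤ) : Qb) / ((r.den : ℕ) : Qb) := by
  rw [eq_ratCast, Rat.cast_def]

/-- The valuation of a nonzero rational number is an integral power of `v 2`. -/
theorem val_rat (hA : A.LiesOverPrime 2) (r : ℚ) (hr : r ≠ 0) :
    ∃ i : ℤ, A.valuation (algebraMap ℚ Qb r) = A.valuation (2 : Qb) ^ i := by
  obtain ⟨k₁, hk₁⟩ := v2r_aux_val_int A hA r.num (Rat.num_ne_zero.mpr hr)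
  obtain ⟨k₂, hk₂⟩ := v2r_aux_val_nat A hA r.den r.den_nz
  have h2 : A.valuation (2 : Qb) ≠ 0 := (Valuation.ne_zero_iff _).mpr two_ne_zero
  refine ⟨(k₁ : ℤ) - k₂, ?_⟩
  rw [v2r_aux_cast, map_div₀, hk₁, hk₂, zpow_sub₀ h2, zpow_natCast, zpow_natCast]

/-- A `2`-integral rational number is `≡ 0` or `≡ 1` modulo the maximal ideal. -/
theorem rat_residue (hA : A.LiesOverPrime 2) (r : ℚ) (hr : A.valuation (algebraMap ℚ Qb r) ≤ 1) :
    A.valuation (algebraMap ℚ Qb r) < 1 ∨ A.valuation (algebraMap ℚ Qb r - 1) < 1 := by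
  have hd0 : ((r.den : ℕ) : Qb) ≠ 0 := Nat.cast_ne_zero.mpr r.den_nz
  have hdpos : 0 < A.valuation ((r.den : ℕ) : Qb) :=
    zero_lt_iff.mpr ((Valuation.ne_zero_iff _).mpr hd0)
  have hdle : A.valuation ((r.den : ℕ) : Qb) ≤ 1 := by
    have := Fermat.Agent.S05.val_intCast_le_one A (r.den : ℤ)
    rwa [Int.cast_natCast] at this
  -- the denominator is odd
  have hdodd : ¬ ((2 : ℕ) : ℤ) ∣ (r.den : ℤ) := by
    intro hd
    have hn : ¬ ((2 : ℕ) : ℤ) ∣ r.num := by
      intro hn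
      have h1 : (2 : ℕ) ∣ r.num.natAbs := by
        have := Int.natAbs_dvd_natAbs.mpr hn
        simpa using this
      have h2 : (2 : ℕ) ∣ r.den := by exact_mod_cast hd
      have h3 := Nat.dvd_gcd h1 h2
      rw [Nat.Coprime.gcd_eq_one r.reduced] at h3
      omega
    have hvn : A.valuation ((r.num : ℤ) : Qb) = 1 :=
      (Fermat.Agent.S05.val_intCast_eq_one_iff A Nat.prime_two hA _).mpr hn
    have hvd : A.valuation ((r.den : ℕ) : Qb) < 1 := by
      have := (Fermat.Agent.S05.val_intCast_lt_one_iff A Nat.prime_two hA _).mpr hd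
      rwa [Int.cast_natCast] at this
    rw [v2r_aux_cast, map_div₀, hvn, div_le_iff₀ hdpos, one_mul] at hr
    exact absurd hvd (not_lt.mpr hr)
  have hvd : A.valuation ((r.den : ℕ) : Qb) = 1 := by
    have := (Fermat.Agent.S05.val_intCast_eq_one_iff A Nat.prime_two hA _).mpr hdodd
    rwa [Int.cast_natCast] at this
  by_cases hn : ((2 : ℕ) : ℤ) ∣ r.num
  · left
    rw [v2r_aux_cast, map_div₀, hvd, div_one]
    exact (Fermat.Agent.S05.val_intCast_lt_one_iff A Nat.prime_two hA _).mpr hn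
  · right
    have hsub : ((2 : ℕ) : ℤ) ∣ r.num - (r.den : ℤ) := by
      have h1 : ((2 : ℕ) : ℤ) = 2 := rfl
      rw [h1] at hn hdodd ⊢
      omega
    have hv := (Fermat.Agent.S05.val_intCast_lt_one_iff A Nat.prime_two hA _).mpr hsub
    have heq : algebraMap ℚ Qb r - 1
        = (((r.num - (r.den : ℤ) : ℤ) : ℤ) : Qb) / ((r.den : ℕ) : Qb) := by
      rw [v2r_aux_cast, Int.cast_sub, Int.cast_natCast, sub_div, div_self hd0]
    rw [heq, map_div₀, hvd, div_one]
    exact hv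

end Fermat.Agent.S13.TwoAdic.V2
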